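import Mathlib
import Fermat.Prelude.Def_CuspForm_HeckeAlgebra
import Fermat.Prelude.Thm_ModularForm_sturm_bound_Gamma0
import Fermat.Prelude.Thm_CongruenceSubgroup_one_mem_strictPeriods_Gamma0

set_option autoImplicit false

namespace Fermat.Agent.LibS22

open scoped MatrixGroups

/-- Abstract finiteness skeleton: if a finitely generated `ℤ`-submodule `Λ` of the dual of a complex
vector space `V` separates the points of `V` and is stable under precomposition with every
operator of a set `G`, then the `ℤ`-algebra generated by `G` is a finite `ℤ`-module. -/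
theorem finite_adjoin_of_dual_lattice {V : Type*} [AddCommGroup V] [Module ℂ V]
    (G : Set (Module.End ℂ V)) (Λ : Submodule ℤ (Module.Dual ℂ V)) (hfg : Λ.FG)
    (hstab : ∀ T ∈ G, ∀ l ∈ Λ, l ∘ₗ T ∈ Λ)
    (hsep : ∀ v : V, (∀ l ∈ Λ, l v = 0) → v = 0) :
    Module.Finite ℤ (Algebra.adjoin ℤ G) := by
  classical
  -- stability for the whole adjoin
  have hstab' : ∀ T ∈ Algebra.adjoin ℤ G, ∀ l ∈ Λ, l ∘ₗ T ∈ Λ := by
    intro T hT
    induction hT using Algebra.adjoin_induction with
    | mem x hx => exact hstab x hx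
    | algebraMap r =>
      intro l hl
      have : l ∘ₗ (algebraMap ℤ (Module.End ℂ V) r) = r • l := by
        ext v
        simp
      rw [this]
      exact Λ.smul_mem r hl
    | add x y _ _ hx hy =>
      intro l hl
      rw [LinearMap.comp_add]
      exact Λ.add_mem (hx l hl) (hy l hl)
    | mul x y _ _ hx hy =>
      intro l hl
      have : l ∘ₗ (x * y) = (l ∘ₗ x) ∘ₗ y := rfl
      rw [this]
      exact hy _ (hx l hl)
  have : Module.Finite ℤ Λ := Module.Finite.iff_fg.mpr hfg
  have : Module.IsTorsionFree ℤ Λ := inferInstance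
  have : Module.Free ℤ Λ := Module.free_of_finite_type_torsion_free'
  -- the ℤ-linear map `T ↦ (l ↦ l ∘ T)`
  let Ψ : (Algebra.adjoin ℤ G) →ₗ[ℤ] (Λ →ₗ[ℤ] Λ) :=
    { toFun := fun T =>
        { toFun := fun l => ⟨(l : Module.Dual ℂ V) ∘ₗ (T : Module.End ℂ V), hstab' T T.2 l l.2⟩
          map_add' := fun l l' => by
            ext v; simp
          map_smul' := fun r l => by
            ext v; simp }
      map_add' := fun T T' => by
        ext l v; simp
      map_smul' := fun r T => by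
        ext l v; simp }
  have hΨ : Function.Injective Ψ := by
    rw [injective_iff_map_eq_zero]
    intro T hT
    apply Subtype.ext
    ext v
    apply hsep
    intro l hl
    have h1 := congrArg (fun φ : Λ →ₗ[ℤ] Λ => ((φ ⟨l, hl⟩ : Λ) : Module.Dual ℂ V) v) hT
    simpa [Ψ] using h1
  exact Module.Finite.of_injective Ψ hΨ

/-- Reduction of the finiteness of the Hecke algebra to the existence of a good lattice in the
dual of the space of cusp forms. -/
theorem heckeAlgebra_finite_of_dual_lattice (N : ℕ) [NeZero N] (k : ℤ) (S : Set ℕ)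
    (Λ : Submodule ℤ (Module.Dual ℂ (CuspForm (CongruenceSubgroup.Gamma0 N) k))) (hfg : Λ.FG)
    (hT : ∀ (ℓ : ℕ) (hℓ : ℓ.Prime) (hℓN : ¬ ℓ ∣ N), ∀ l ∈ Λ, l ∘ₗ CuspForm.heckeTLin k hℓ hℓN ∈ Λ)
    (hU : ∀ (q : ℕ) (hqN : q ∣ N), q.Prime → ∀ l ∈ Λ, l ∘ₗ CuspForm.heckeULin k hqN ∈ Λ)
    (hsep : ∀ f : CuspForm (CongruenceSubgroup.Gamma0 N) k, (∀ l ∈ Λ, l f = 0) → f = 0) :
    Module.Finite ℤ (CuspForm.heckeAlgebra N k S) := by
  refine finite_adjoin_of_dual_lattice (CuspForm.heckeGenerators N k S) Λ hfg ?_ hsep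
  rintro T (⟨ℓ, hℓ, hℓN, -, rfl⟩ | ⟨q, hqN, hq, -, rfl⟩)
  · exact hT ℓ hℓ hℓN
  · exact hU q hqN hq

/-- If the space of cusp forms is trivial, the Hecke algebra is finite over `ℤ`. -/
theorem heckeAlgebra_finite_of_subsingleton (N : ℕ) [NeZero N] (k : ℤ) (S : Set ℕ)
    (h : ∀ f : CuspForm (CongruenceSubgroup.Gamma0 N) k, f = 0) :
    Module.Finite ℤ (CuspForm.heckeAlgebra N k S) := by
  refine heckeAlgebra_finite_of_dual_lattice N k S ⊥ Submodule.fg_bot ?_ ?_ ?_
  · intro ℓ hℓ hℓN l hl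
    rw [Submodule.mem_bot] at hl ⊢
    rw [hl, LinearMap.zero_comp]
  · intro q hqN _ l hl
    rw [Submodule.mem_bot] at hl ⊢
    rw [hl, LinearMap.zero_comp]
  · intro f _
    exact h f

/-- Cusp forms of non-positive weight on `Γ₀(N)` vanish. -/
theorem cuspForm_eq_zero_of_weight_nonpos (N : ℕ) [NeZero N] {k : ℤ} (hk : k ≤ 0)
    (f : CuspForm (CongruenceSubgroup.Gamma0 N) k) : f = 0 := by
  apply CuspForm.toModularFormₗ_injective
  rw [_root_.map_zero]
  apply ModularForm.sturm_bound_Gamma0 N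
  intro n hn
  have h0 : (k * ((CongruenceSubgroup.Gamma0 N).index : ℤ)).toNat = 0 := by
    apply Int.toNat_of_nonpos
    exact mul_nonpos_of_nonpos_of_nonneg hk (Int.natCast_nonneg _)
  have : n = 0 := by
    rw [h0] at hn
    simpa using hn
  subst this
  exact CuspFormClass.qExpansion_coeff_zero f one_pos
    (CongruenceSubgroup.one_mem_strictPeriods_Gamma0 N)

/-- Cusp forms of odd weight on `Γ₀(N)` vanish. -/
theorem cuspForm_eq_zero_of_weight_odd (N : ℕ) {k : ℤ} (hk : Odd k)
    (f : CuspForm (CongruenceSubgroup.Gamma0 N) k) : f = 0 := by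
  have hmem : (-1 : GL (Fin 2) ℝ) ∈
      ((CongruenceSubgroup.Gamma0 N : Subgroup SL(2, ℤ)) : Subgroup (GL (Fin 2) ℝ)) := by
    refine ⟨-1, ?_, ?_⟩
    · change (-1 : SL(2, ℤ)) ∈ CongruenceSubgroup.Gamma0 N
      rw [CongruenceSubgroup.Gamma0_mem]
      simp
    · ext i j
      simp
  apply CuspForm.toModularFormₗ_injective
  rw [_root_.map_zero]
  exact ModularForm.eq_zero_of_neg_one_mem hmem hk _

/-- The Hecke algebra is finite when `k ≤ 0`. -/
theorem heckeAlgebra_finite_of_weight_nonpos (N : ℕ) [NeZero N] {k : ℤ} (hk : k ≤ 0) (S : Set ℕ) :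
    Module.Finite ℤ (CuspForm.heckeAlgebra N k S) :=
  heckeAlgebra_finite_of_subsingleton N k S (cuspForm_eq_zero_of_weight_nonpos N hk)

/-- The Hecke algebra is finite when `k` is odd. -/
theorem heckeAlgebra_finite_of_weight_odd (N : ℕ) [NeZero N] {k : ℤ} (hk : Odd k) (S : Set ℕ) :
    Module.Finite ℤ (CuspForm.heckeAlgebra N k S) :=
  heckeAlgebra_finite_of_subsingleton N k S (cuspForm_eq_zero_of_weight_odd N hk)

end Fermat.Agent.LibS22
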