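import Fermat.Agent.Lib.H4.FG
import Fermat.Prelude.Def_CuspForm_HeckeAlgebra

/-!
# The period lattice is stable under the Hecke operators
-/

set_option autoImplicit false

open Complex Filter Function
open UpperHalfPlane hiding I
open scoped Manifold Topology Real MatrixGroups ModularForm
open Matrix.SpecialLinearGroup
open Fermat.Agent.H4

namespace Fermat.Agent.LibS22

/-- `Ψ` of an upper triangular slash. -/
theorem Psi_slash_UT (g : GL (Fin 2) ℝ) (h10 : g 1 0 = 0) (h00 : 0 < g 0 0) (h11 : 0 < g 1 1)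
    (w : ℕ) {f : ℍ → ℂ} (hf : HasChain (w + 1) f) (z : ℍ) (v : ℂ × ℂ) :
    Psi w (f ∣[(w : ℤ) + 2] g) z v = Psi w f (g • z) (actV g v) := by
  unfold Psi actV
  rw [PsiC_slash_UT g h10 h00 h11 w hf z v.1 v.2, h10]
  simp

theorem hasChain_zero_fun (n : ℕ) {f₀ : ℍ → ℂ} (hf₀ : HasChain n f₀) : HasChain n (0 : ℍ → ℂ) := by
  have := hf₀.smul (0 : ℂ)
  rwa [zero_smul] at this

theorem hasChain_sum {ι : Type*} (s : Finset ι) (n : ℕ) (F : ι → ℍ → ℂ)
    (hF : ∀ i ∈ s, HasChain n (F i)) {f₀ : ℍ → ℂ} (hf₀ : HasChain n f₀) :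
    HasChain n (∑ i ∈ s, F i) := by
  classical
  induction s using Finset.induction_on with
  | empty => rw [Finset.sum_empty]; exact hasChain_zero_fun n hf₀
  | insert a s ha ih =>
    rw [Finset.sum_insert ha]
    exact (hF a (Finset.mem_insert_self a s)).add
      (ih fun i hi => hF i (Finset.mem_insert_of_mem hi))

theorem Psi_sum {ι : Type*} (s : Finset ι) (w : ℕ) (F : ι → ℍ → ℂ)
    (hF : ∀ i ∈ s, HasChain (w + 1) (F i)) {f₀ : ℍ → ℂ} (hf₀ : HasChain (w + 1) f₀)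
    (z : ℍ) (v : ℂ × ℂ) :
    Psi w (∑ i ∈ s, F i) z v = ∑ i ∈ s, Psi w (F i) z v := by
  classical
  induction s using Finset.induction_on with
  | empty =>
    rw [Finset.sum_empty, Finset.sum_empty]
    have := PsiC_smul w (0 : ℂ) hf₀ (z : ℂ) v.1 v.2
    rw [zero_smul, zero_mul] at this
    exact this
  | insert a s ha ih =>
    rw [Finset.sum_insert ha, Finset.sum_insert ha,
      ← ih fun i hi => hF i (Finset.mem_insert_of_mem hi)]
    exact PsiC_add w (hF a (Finset.mem_insert_self a s))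
      (hasChain_sum s (w + 1) F (fun i hi => hF i (Finset.mem_insert_of_mem hi)) hf₀) _ _ _

/-- Abstract Hecke stability: an operator given by a finite family of upper triangular matrices
with integer action on vectors, which is permuted by `γ ∈ Γ₀(N)` up to left multiplication by
elements of `Γ₀(N)`, maps the period functional of `γ` into the period lattice. -/
theorem lam_comp_mem {N : ℕ} [NeZero N] {w : ℕ} {ι : Type*} [Fintype ι] (α : ι → GL (Fin 2) ℝ)
    (hα10 : ∀ x, α x 1 0 = 0) (hα00 : ∀ x, 0 < α x 0 0) (hα11 : ∀ x, 0 < α x 1 1)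
    (hαint : ∀ x v, IntVec v → IntVec (actV (α x) v))
    (T : CF N w →ₗ[ℂ] CF N w)
    (hT : ∀ f : CF N w, (⇑(T f) : ℍ → ℂ) = ∑ x, (⇑f : ℍ → ℂ) ∣[(w : ℤ) + 2] α x)
    (γ : SL(2, ℤ))
    (e : Equiv.Perm ι) (γ' : ι → SL(2, ℤ)) (hγ' : ∀ x, γ' x ∈ CongruenceSubgroup.Gamma0 N)
    (hmul : ∀ x, α x * (mapGL ℝ γ : GL (Fin 2) ℝ) = (mapGL ℝ (γ' x) : GL (Fin 2) ℝ) * α (e x))
    {v : ℂ × ℂ} (hv : IntVec v) :
    lam N w (mapGL ℝ γ : GL (Fin 2) ℝ) v ∘ₗ T ∈ Lam N w := by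
  have h : lam N w (mapGL ℝ γ : GL (Fin 2) ℝ) v ∘ₗ T
      = ∑ x, lam N w (mapGL ℝ (γ' x) : GL (Fin 2) ℝ) (actV (α (e x)) v) := by
    ext f
    have hch : ∀ x ∈ (Finset.univ : Finset ι),
        HasChain (w + 1) ((⇑f : ℍ → ℂ) ∣[(w : ℤ) + 2] α x) := fun x _ =>
      (CF.hasChain f (w + 1)).slash_UT (α x) (hα10 x) (hα00 x) (hα11 x) (w + 1) _
    rw [LinearMap.comp_apply, lam_apply, hT f, Psi_sum _ w _ hch (CF.hasChain f (w + 1)),
      Psi_sum _ w _ hch (CF.hasChain f (w + 1)), LinearMap.sum_apply]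
    simp_rw [Psi_slash_UT (α _) (hα10 _) (hα00 _) (hα11 _) w (CF.hasChain f (w + 1))]
    rw [← Equiv.sum_comp e (fun x => Psi w (⇑f) (α x • UpperHalfPlane.I) (actV (α x) v)),
      ← Finset.sum_sub_distrib]
    refine Finset.sum_congr rfl fun x _ => ?_
    rw [← mul_smul, ← actV_mul, hmul x, mul_smul, actV_mul]
    exact lam_indep (hγ' x) (actV (α (e x)) v) f (α (e x) • UpperHalfPlane.I)
  rw [h]
  refine Submodule.sum_mem _ fun x _ => ?_
  obtain ⟨m, n, hmn⟩ := hαint (e x) v hv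
  rw [hmn]
  exact lam_mem_Lam (hγ' x) m n

theorem heckeMatrix_UT {p : ℕ} (hp : p ≠ 0) (j : ℕ) :
    (ModularForm.heckeMatrix p j : GL (Fin 2) ℝ) 1 0 = 0 ∧
      0 < (ModularForm.heckeMatrix p j : GL (Fin 2) ℝ) 0 0 ∧
      0 < (ModularForm.heckeMatrix p j : GL (Fin 2) ℝ) 1 1 := by
  have hp' : (0 : ℝ) < p := by exact_mod_cast Nat.pos_of_ne_zero hp
  simp [ModularForm.val_heckeMatrix hp, hp']

theorem heckeDiagMatrix_UT {p : ℕ} (hp : p ≠ 0) :
    (ModularForm.heckeDiagMatrix p : GL (Fin 2) ℝ) 1 0 = 0 ∧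
      0 < (ModularForm.heckeDiagMatrix p : GL (Fin 2) ℝ) 0 0 ∧
      0 < (ModularForm.heckeDiagMatrix p : GL (Fin 2) ℝ) 1 1 := by
  have hp' : (0 : ℝ) < p := by exact_mod_cast Nat.pos_of_ne_zero hp
  simp [ModularForm.val_heckeDiagMatrix hp, hp']

theorem intVec_actV_heckeMatrix {p : ℕ} (hp : p ≠ 0) (j : ℕ) {v : ℂ × ℂ} (hv : IntVec v) :
    IntVec (actV (ModularForm.heckeMatrix p j) v) := by
  obtain ⟨m, n, rfl⟩ := hv
  refine ⟨m + j * n, p * n, ?_⟩
  simp [actV, ModularForm.val_heckeMatrix hp]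

theorem intVec_actV_heckeDiagMatrix {p : ℕ} (hp : p ≠ 0) {v : ℂ × ℂ} (hv : IntVec v) :
    IntVec (actV (ModularForm.heckeDiagMatrix p) v) := by
  obtain ⟨m, n, rfl⟩ := hv
  refine ⟨p * m, n, ?_⟩
  simp [actV, ModularForm.val_heckeDiagMatrix hp]

open P2MW.S_ModularForm_heckeT_slash_eq_self_of_mem_Gamma0.ModularForm.HeckeSlashInvariance in
/-- The period lattice is stable under `T_ℓ`. -/
theorem Lam_heckeT {N : ℕ} [NeZero N] {w : ℕ} {ℓ : ℕ} (hℓ : ℓ.Prime) (hℓN : ¬ ℓ ∣ N) :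
    ∀ l ∈ Lam N w, l ∘ₗ CuspForm.heckeTLin ((w : ℤ) + 2) hℓ hℓN ∈ Lam N w := by
  have : Fact ℓ.Prime := ⟨hℓ⟩
  have : NeZero ℓ := ⟨hℓ.ne_zero⟩
  have hℓ0 : ℓ ≠ 0 := hℓ.ne_zero
  intro l hl
  induction hl using Submodule.span_induction with
  | mem l hl =>
    obtain ⟨γ, hγ, m, n, rfl⟩ := hl
    have hcN : (N : ℤ) ∣ γ 1 0 :=
      (ZMod.intCast_zmod_eq_zero_iff_dvd _ _).mp (CongruenceSubgroup.Gamma0_mem.mp hγ)
    choose γ' hγ'N hγ'mul using heckeRep_mul hℓN γ hcN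
    refine lam_comp_mem (heckeRep ℓ) ?_ ?_ ?_ ?_ (CuspForm.heckeTLin ((w : ℤ) + 2) hℓ hℓN) ?_ γ
      (MulAction.toPerm (redMatrix ℓ γ)) γ' ?_ ?_ ⟨m, n, rfl⟩
    · intro x
      induction x using OnePoint.rec with
      | infty => exact (heckeDiagMatrix_UT hℓ0).1
      | coe j => exact (heckeMatrix_UT hℓ0 j.val).1
    · intro x
      induction x using OnePoint.rec with
      | infty => exact (heckeDiagMatrix_UT hℓ0).2.1
      | coe j => exact (heckeMatrix_UT hℓ0 j.val).2.1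
    · intro x
      induction x using OnePoint.rec with
      | infty => exact (heckeDiagMatrix_UT hℓ0).2.2
      | coe j => exact (heckeMatrix_UT hℓ0 j.val).2.2
    · intro x v hv
      induction x using OnePoint.rec with
      | infty => exact intVec_actV_heckeDiagMatrix hℓ0 hv
      | coe j => exact intVec_actV_heckeMatrix hℓ0 j.val hv
    · intro f
      rw [CuspForm.coe_heckeTLin_apply, heckeT_eq_sum_onePoint]
    · intro x
      exact CongruenceSubgroup.Gamma0_mem.mpr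
        ((ZMod.intCast_zmod_eq_zero_iff_dvd _ _).mpr (hγ'N x))
    · intro x
      exact hγ'mul x
  | zero => rw [LinearMap.zero_comp]; exact zero_mem _
  | add x y _ _ hx hy => rw [LinearMap.add_comp]; exact add_mem hx hy
  | smul a x _ hx => rw [LinearMap.smul_comp]; exact Submodule.smul_mem _ a hx

open P2MW.S_ModularForm_heckeT_slash_eq_self_of_mem_Gamma0.ModularForm.HeckeSlashInvariance in
/-- The period lattice is stable under `U_q`. -/
theorem Lam_heckeU {N : ℕ} [NeZero N] {w : ℕ} {q : ℕ} (hqN : q ∣ N) (hq : q.Prime) :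
    ∀ l ∈ Lam N w, l ∘ₗ CuspForm.heckeULin ((w : ℤ) + 2) hqN ∈ Lam N w := by
  have : NeZero q := ⟨hq.ne_zero⟩
  have hq0 : q ≠ 0 := hq.ne_zero
  intro l hl
  induction hl using Submodule.span_induction with
  | mem l hl =>
    obtain ⟨γ, hγ, m, n, rfl⟩ := hl
    have hcN : (N : ℤ) ∣ γ 1 0 :=
      (ZMod.intCast_zmod_eq_zero_iff_dvd _ _).mp (CongruenceSubgroup.Gamma0_mem.mp hγ)
    have hc : (q : ℤ) ∣ γ 1 0 := (Int.natCast_dvd_natCast.mpr hqN).trans hcN
    choose γ' hγ'N hγ'mul using heckeMatrix_mul_of_dvd γ hc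
    refine lam_comp_mem (fun x : ZMod q => ModularForm.heckeMatrix q x.val) ?_ ?_ ?_ ?_
      (CuspForm.heckeULin ((w : ℤ) + 2) hqN) ?_ γ
      (affinePerm γ ((ZMod.intCast_zmod_eq_zero_iff_dvd _ _).mpr hc)) γ' ?_ ?_ ⟨m, n, rfl⟩
    · intro x
      exact (heckeMatrix_UT hq0 x.val).1
    · intro x
      exact (heckeMatrix_UT hq0 x.val).2.1
    · intro x
      exact (heckeMatrix_UT hq0 x.val).2.2
    · intro x v hv
      exact intVec_actV_heckeMatrix hq0 x.val hv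
    · intro f
      rw [CuspForm.coe_heckeULin_apply, heckeU_eq_sum_zmod]
    · intro x
      refine CongruenceSubgroup.Gamma0_mem.mpr ((ZMod.intCast_zmod_eq_zero_iff_dvd _ _).mpr ?_)
      rw [hγ'N x]
      exact dvd_mul_of_dvd_right hcN _
    · intro x
      exact hγ'mul x
  | zero => rw [LinearMap.zero_comp]; exact zero_mem _
  | add x y _ _ hx hy => rw [LinearMap.add_comp]; exact add_mem hx hy
  | smul a x _ hx => rw [LinearMap.smul_comp]; exact Submodule.smul_mem _ a hx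

end Fermat.Agent.LibS22
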