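import Mathlib

set_option autoImplicit false

namespace Fermat.Agent.LibS22

open UpperHalfPlane ModularForm CongruenceSubgroup
open scoped MatrixGroups Manifold

/-- `Γ₀(N)` is finitely generated. -/
theorem gamma0_fg (N : ℕ) [NeZero N] : Group.FG ↥(CongruenceSubgroup.Gamma0 N) := by
  have hfg : Group.FG SL(2, ℤ) := by
    rw [Group.fg_iff]
    exact ⟨{ModularGroup.S, ModularGroup.T}, SpecialLinearGroup.SL2Z_generators,
      by simp⟩
  exact Subgroup.fg_of_index_ne_zero _

/-- A holomorphic function on the upper half plane which is invariant of weight `-w ≤ 0` under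
`Γ₀(N)`, bounded at all cusps and zero at `i∞`, vanishes identically. -/
theorem eq_zero_of_slash_invariant_of_bdd (N : ℕ) [NeZero N] (w : ℕ) (F : ℍ → ℂ)
    (hol : MDifferentiable 𝓘(ℂ) 𝓘(ℂ) F)
    (hinv : ∀ γ ∈ (CongruenceSubgroup.Gamma0 N : Subgroup (GL (Fin 2) ℝ)), F ∣[-(w : ℤ)] γ = F)
    (hbdd : ∀ δ : SL(2, ℤ), IsBoundedAtImInfty (F ∣[-(w : ℤ)] δ))
    (hzero : IsZeroAtImInfty F) : F = 0 := by
  let g : ModularForm (CongruenceSubgroup.Gamma0 N : Subgroup (GL (Fin 2) ℝ)) (-(w : ℤ)) :=
    { toFun := F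
      slash_action_eq' := hinv
      holo' := hol
      bdd_at_cusps' := fun {c} hc => by
        have hc' : IsCusp c 𝒮ℒ := by
          rw [Subgroup.IsArithmetic.isCusp_iff_isCusp_SL2Z] at hc
          exact hc
        rw [OnePoint.isBoundedAt_iff_forall_SL2Z hc']
        intro γ _
        exact hbdd γ }
  have hg : (g : ℍ → ℂ) = F := rfl
  rcases Nat.eq_zero_or_pos w with rfl | hw
  · -- weight zero: constant, and zero at infinity
    have hg0 : ∃ c₀, (g : ℍ → ℂ) = Function.const ℍ c₀ := by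
      have := ModularForm.eq_const_of_weight_zero
        (𝒢 := (CongruenceSubgroup.Gamma0 N : Subgroup (GL (Fin 2) ℝ)))
        (ModularForm.mcast (by simp) g)
      simpa using this
    obtain ⟨c₀, hc₀⟩ := hg0
    rw [hg] at hc₀
    have hc₀0 : c₀ = 0 := by
      by_contra hne
      have hpos : 0 < ‖c₀‖ / 2 := by positivity
      obtain ⟨A, hA⟩ := (UpperHalfPlane.isZeroAtImInfty_iff.mp hzero) (‖c₀‖ / 2) hpos
      have hz : 0 < (Complex.I * ((max A 1 : ℝ) : ℂ)).im := by
        simp
      have := hA ⟨Complex.I * ((max A 1 : ℝ) : ℂ), hz⟩ (by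
        change A ≤ (Complex.I * ((max A 1 : ℝ) : ℂ)).im
        simp)
      rw [hc₀, Function.const_apply] at this
      linarith [norm_nonneg c₀]
    rw [hc₀, hc₀0]
    rfl
  · have hneg : -(w : ℤ) < 0 := by
      have : (0 : ℤ) < w := by exact_mod_cast hw
      omega
    have := ModularForm.isZero_of_neg_weight hneg g
    rw [← hg, this]
    rfl

end Fermat.Agent.LibS22
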